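import Mathlib
import Fermat.Prelude.Def_EllipticCurve_FrobeniusTrace

set_option autoImplicit false
set_option linter.style.haveILetI false

namespace Fermat.Agent.FrobLib

open Polynomial
open scoped Pointwise

section Key

variable {L : Type*} [Field L]

theorem aeval_mem_valuationSubring (V : ValuationSubring L) {x : L} (hx : x ∈ V) (q : ℤ[X]) :
    aeval x q ∈ V := by
  have h := Polynomial.aeval_algebraMap_apply L (⟨x, hx⟩ : V) q
  have h2 : algebraMap V L (⟨x, hx⟩ : V) = x := rfl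
  rw [h2] at h
  rw [h]
  exact (aeval (⟨x, hx⟩ : V) q).2

theorem aeval_divX_iterate_succ (x : L) (p : ℤ[X]) (k : ℕ) :
    aeval x (divX^[k] p) = aeval x (divX^[k+1] p) * x + ((p.coeff k : ℤ) : L) := by
  have hc : ∀ (k n : ℕ), (divX^[k] p).coeff n = p.coeff (n + k) := by
    intro k
    induction k with
    | zero => intro n; simp
    | succ k ih =>
      intro n
      rw [Function.iterate_succ_apply', coeff_divX, ih]
      congr 1
      omega
  conv_lhs => rw [← divX_mul_X_add (divX^[k] p)]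
  rw [Function.iterate_succ_apply', map_add, map_mul, aeval_X, aeval_C, hc k 0, zero_add]
  simp

theorem isIntegral_aeval_divX_iterate (x : L) (p : ℤ[X]) (hp : aeval x p = 0) (k : ℕ) :
    IsIntegral ℤ (aeval x (divX^[k] p)) := by
  by_contra h
  have : IsIntegrallyClosedIn (integralClosure ℤ L).toSubring L :=
    inferInstanceAs (IsIntegrallyClosedIn (integralClosure ℤ L) L)
  obtain ⟨V, -, hV⟩ := Subring.exists_le_valuationSubring_of_isIntegrallyClosedIn
    (R := (integralClosure ℤ L).toSubring) (x := aeval x (divX^[k] p)) h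
  apply hV
  rcases V.mem_or_inv_mem x with hx | hx
  · exact aeval_mem_valuationSubring V hx _
  · by_cases hx0 : x = 0
    · exact aeval_mem_valuationSubring V (hx0 ▸ V.zero_mem) _
    clear hV h
    induction k with
    | zero => simp [hp, V.zero_mem]
    | succ k ih =>
      have h1 := aeval_divX_iterate_succ x p k
      have h2 : aeval x (divX^[k+1] p) = (aeval x (divX^[k] p) - ((p.coeff k : ℤ) : L)) * x⁻¹ := by
        rw [h1]; field_simp; ring
      rw [h2]
      exact V.mul_mem _ _ (V.sub_mem ih (intCast_mem V _)) hx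

theorem int_dvd_of_mem_nonunits (A : ValuationSubring L) {ℓ : ℕ} (hℓ : ℓ.Prime)
    (hA : (ℓ : L) ∈ A.nonunits) {a : ℤ} (ha : (a : L) ∈ A.nonunits) : (ℓ : ℤ) ∣ a := by
  by_contra hnd
  have hcop : IsCoprime (ℓ : ℤ) a := (Nat.prime_iff_prime_int.mp hℓ).coprime_iff_not_dvd.mpr hnd
  obtain ⟨u, v, huv⟩ := hcop
  have h1 : ((u : ℤ) : L) * (ℓ : L) + ((v : ℤ) : L) * (a : L) = 1 := by
    have := congrArg (Int.cast : ℤ → L) huv
    push_cast at this
    exact this
  rw [ValuationSubring.mem_nonunits_iff] at hA ha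
  have hu : A.valuation ((u : ℤ) : L) ≤ 1 := (A.valuation_le_one_iff _).mpr (intCast_mem A u)
  have hv : A.valuation ((v : ℤ) : L) ≤ 1 := (A.valuation_le_one_iff _).mpr (intCast_mem A v)
  have h2 : A.valuation (((u : ℤ) : L) * (ℓ : L) + ((v : ℤ) : L) * (a : L)) < 1 := by
    apply Valuation.map_add_lt
    · rw [map_mul, mul_comm]; exact mul_lt_one_of_lt_of_le hA hu
    · rw [map_mul, mul_comm]; exact mul_lt_one_of_lt_of_le ha hv
  rw [h1, map_one] at h2
  exact lt_irrefl _ h2

theorem exists_integral_mul (A : ValuationSubring L) {ℓ : ℕ} (hℓ : ℓ.Prime)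
    (hA : (ℓ : L) ∈ A.nonunits) [CharZero L] {x : L} (hx : x ∈ A) (hxalg : IsAlgebraic ℤ x) :
    ∃ b : L, IsIntegral ℤ b ∧ IsIntegral ℤ (b * x) ∧ b ∉ A.nonunits := by
  by_contra H
  push Not at H
  obtain ⟨p, hp0, hp⟩ := hxalg
  have hprim := aeval_primPart_eq_zero hp0 hp
  set q := p.primPart with hq
  have hy : ∀ k, aeval x (divX^[k] q) ∈ A.nonunits := by
    intro k
    cases k with
    | zero =>
      simp only [Function.iterate_zero, id_eq, hprim]
      rw [ValuationSubring.mem_nonunits_iff, map_zero]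
      exact zero_lt_one
    | succ k =>
      apply H _ (isIntegral_aeval_divX_iterate x q hprim (k+1))
      have h1 := aeval_divX_iterate_succ x q k
      have h2 : aeval x (divX^[k+1] q) * x = aeval x (divX^[k] q) - ((q.coeff k : ℤ) : L) := by
        rw [h1]; ring
      rw [h2]
      exact (isIntegral_aeval_divX_iterate x q hprim k).sub (isIntegral_intCast _)
  have hcoeff : ∀ k, (ℓ : ℤ) ∣ q.coeff k := by
    intro k
    apply int_dvd_of_mem_nonunits A hℓ hA
    have h1 := aeval_divX_iterate_succ x q k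
    have h2 : ((q.coeff k : ℤ) : L) = aeval x (divX^[k] q) - aeval x (divX^[k+1] q) * x := by
      rw [h1]; ring
    rw [h2, ValuationSubring.mem_nonunits_iff]
    have hk := hy k
    have hk1 := hy (k+1)
    rw [ValuationSubring.mem_nonunits_iff] at hk hk1
    apply Valuation.map_sub_lt _ hk
    rw [map_mul]
    exact mul_lt_one_of_lt_of_le hk1 ((A.valuation_le_one_iff _).mpr hx)
  have hdvd : C (ℓ : ℤ) ∣ q := (C_dvd_iff_dvd_coeff _ _).mpr hcoeff
  have hunit := (isPrimitive_primPart p) _ hdvd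
  exact (Nat.prime_iff_prime_int.mp hℓ).not_isUnit hunit

end Key

section Main

local notation "Qbar" => AlgebraicClosure ℚ
local notation "GQ" => (AlgebraicClosure ℚ ≃ₐ[ℚ] AlgebraicClosure ℚ)
local notation "Zbar" => integralClosure ℤ (AlgebraicClosure ℚ)

theorem isAlgebraic_Qbar : Algebra.IsAlgebraic ℚ (AlgebraicClosure ℚ) :=
  AlgebraicClosure.isAlgebraic ℚ

attribute [local instance] isAlgebraic_Qbar

theorem isAlgClosure_Qbar : IsAlgClosure ℚ (AlgebraicClosure ℚ) :=
  ⟨inferInstance, inferInstance⟩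

attribute [local instance] isAlgClosure_Qbar

theorem isInvariant_Zbar : Algebra.IsInvariant ℤ Zbar GQ := by
  refine ⟨fun b hb => ?_⟩
  have h1 : (b : Qbar) ∈ (⊥ : IntermediateField ℚ Qbar) := by
    rw [InfiniteGalois.mem_bot_iff_fixed]
    intro f
    exact congrArg Subtype.val (hb f)
  obtain ⟨r, hr⟩ := IntermediateField.mem_bot.mp h1
  have h2 : IsIntegral ℤ r := by
    have : IsIntegral ℤ (algebraMap ℚ Qbar r) := hr ▸ b.2
    exact (isIntegral_algebraMap_iff (algebraMap ℚ Qbar).injective).mp this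
  obtain ⟨n, hn⟩ := IsIntegrallyClosed.isIntegral_iff.mp h2
  refine ⟨n, Subtype.ext ?_⟩
  rw [← hr, ← hn]
  simp

theorem integral_mem_valuationSubring {L : Type*} [Field L] (A : ValuationSubring L) {x : L}
    (hx : IsIntegral ℤ x) : x ∈ A := by
  have h1 : IsIntegral A x := hx.tower_top
  obtain ⟨y, hy⟩ := IsIntegrallyClosed.isIntegral_iff.mp h1
  rw [← hy]
  exact y.2

/-- the inclusion of the ring of all algebraic integers in a valuation subring -/
noncomputable def incl (A : ValuationSubring Qbar) : Zbar →+* A :=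
  (algebraMap Zbar Qbar).codRestrict A.toSubring
    (fun x => integral_mem_valuationSubring A x.2)

theorem coe_incl (A : ValuationSubring Qbar) (b : Zbar) : ((incl A b : A) : Qbar) = (b : Qbar) := rfl

/-- the center of a valuation subring on the ring of all algebraic integers -/
noncomputable def center (A : ValuationSubring Qbar) : Ideal Zbar :=
  (IsLocalRing.maximalIdeal A).comap (incl A)

instance center_isPrime (A : ValuationSubring Qbar) : (center A).IsPrime :=
  Ideal.comap_isPrime _ _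

theorem mem_center_iff (A : ValuationSubring Qbar) (b : Zbar) :
    b ∈ center A ↔ (b : Qbar) ∈ A.nonunits := by
  rw [center, Ideal.mem_comap, ValuationSubring.mem_nonunits_iff_exists_mem_maximalIdeal]
  constructor
  · intro h
    exact ⟨(incl A b).2, h⟩
  · rintro ⟨_, h⟩
    exact h

theorem center_liesOver (A : ValuationSubring Qbar) {ℓ : ℕ} (hℓ : ℓ.Prime)
    (hA : (ℓ : Qbar) ∈ A.nonunits) : (center A).LiesOver (Ideal.span {(ℓ : ℤ)}) := by
  constructor
  have hmax : (Ideal.span {(ℓ : ℤ)}).IsMaximal :=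
    PrincipalIdealRing.isMaximal_of_irreducible (Nat.prime_iff_prime_int.mp hℓ).irreducible
  apply hmax.eq_of_le
  · exact (Ideal.IsPrime.under ℤ (center A)).ne_top
  · rw [Ideal.span_singleton_le_iff_mem, Ideal.under, Ideal.mem_comap, mem_center_iff]
    simpa using hA

theorem continuousSMul_Zbar [TopologicalSpace Zbar] [DiscreteTopology Zbar] :
    ContinuousSMul GQ Zbar := by
  rw [continuousSMul_iff_stabilizer_isOpen]
  intro b
  have h := stabilizer_isOpen_of_isIntegral (K := ℚ) (L := Qbar) (b : Qbar)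
  convert h using 2
  ext g
  simp only [MulAction.mem_stabilizer_iff]
  constructor
  · intro h; exact congrArg Subtype.val h
  · intro h; exact Subtype.ext h

theorem exists_stabilizer_frob (A : ValuationSubring Qbar) {ℓ : ℕ} (hℓ : ℓ.Prime)
    (hA : (ℓ : Qbar) ∈ A.nonunits) :
    ∃ σ : GQ, σ • center A = center A ∧ ∀ b : Zbar, σ • b - b ^ ℓ ∈ center A := by
  haveI := center_liesOver A hℓ hA
  letI : TopologicalSpace Zbar := ⊥
  haveI : DiscreteTopology Zbar := ⟨rfl⟩
  haveI := continuousSMul_Zbar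
  haveI := isInvariant_Zbar
  set Q := center A with hQ
  set P : Ideal ℤ := Ideal.span {(ℓ : ℤ)} with hP
  haveI : CharP (Zbar ⧸ Q) ℓ := by
    rw [CharP.charP_iff_prime_eq_zero hℓ]
    have : ((ℓ : Zbar) : Zbar ⧸ Q) = 0 := by
      rw [Ideal.Quotient.eq_zero_iff_mem, hQ, mem_center_iff]
      simpa using hA
    simpa using this
  haveI : Fact ℓ.Prime := ⟨hℓ⟩
  let F : (Zbar ⧸ Q) →ₐ[ℤ ⧸ P] (Zbar ⧸ Q) :=
    { frobenius (Zbar ⧸ Q) ℓ with
      commutes' := by
        intro r
        obtain ⟨n, rfl⟩ := Ideal.Quotient.mk_surjective r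
        simp }
  have hFbij : Function.Bijective F := by
    constructor
    · exact frobenius_inj (Zbar ⧸ Q) ℓ
    · intro y
      obtain ⟨b, rfl⟩ := Ideal.Quotient.mk_surjective y
      obtain ⟨c, hc⟩ := IsAlgClosed.exists_pow_nat_eq (b : Qbar) hℓ.pos
      have hcint : IsIntegral ℤ c := by
        apply IsIntegral.of_pow hℓ.pos
        rw [hc]
        exact b.2
      refine ⟨Ideal.Quotient.mk Q ⟨c, hcint⟩, ?_⟩
      show (Ideal.Quotient.mk Q ⟨c, hcint⟩) ^ ℓ = _
      rw [← map_pow]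
      congr 1
      exact Subtype.ext hc
  obtain ⟨⟨σ, hσ⟩, hσ'⟩ := Ideal.Quotient.stabilizerHom_surjective_of_profinite (G := GQ) P Q
    (AlgEquiv.ofBijective F hFbij)
  refine ⟨σ, hσ, fun b => ?_⟩
  have h1 := DFunLike.congr_fun hσ' (Ideal.Quotient.mk Q b)
  rw [Ideal.Quotient.stabilizerHom_apply] at h1
  rw [← Ideal.Quotient.eq, map_pow]
  exact h1

theorem isAlgebraic_int_Qbar (x : Qbar) : IsAlgebraic ℤ x :=
  (IsFractionRing.isAlgebraic_iff ℤ ℚ Qbar).mpr (Algebra.IsAlgebraic.isAlgebraic x)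

theorem map_mem_of_smul_center_eq (A : ValuationSubring Qbar) {ℓ : ℕ} (hℓ : ℓ.Prime)
    (hA : (ℓ : Qbar) ∈ A.nonunits) (τ : GQ) (hτ : τ • center A = center A) {x : Qbar}
    (hx : x ∈ A) : τ x ∈ A := by
  obtain ⟨b, hb, hbx, hbn⟩ := exists_integral_mul A hℓ hA hx (isAlgebraic_int_Qbar x)
  have h1 : τ b ∉ A.nonunits := by
    intro h
    have h2 : τ • (⟨b, hb⟩ : Zbar) ∈ center A := (mem_center_iff A _).mpr h
    rw [← hτ, Ideal.smul_mem_pointwise_smul_iff] at h2
    exact hbn ((mem_center_iff A _).mp h2)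
  have h3 : τ (b * x) ∈ A :=
    integral_mem_valuationSubring A (hbx.map (τ : Qbar →ₐ[ℚ] Qbar).toRingHom.toIntAlgHom)
  have h4 : τ b ∈ A :=
    integral_mem_valuationSubring A (hb.map (τ : Qbar →ₐ[ℚ] Qbar).toRingHom.toIntAlgHom)
  rw [ValuationSubring.mem_nonunits_iff, not_lt] at h1
  rw [← A.valuation_le_one_iff] at h3 h4 ⊢
  have h5 : A.valuation (τ b) = 1 := le_antisymm h4 h1
  rw [map_mul, map_mul, h5, one_mul] at h3
  exact h3

/-- **Existence of Frobenius elements** in the absolute Galois group of `ℚ`, at any valuation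
subring of `ℚ̄` lying over a prime. -/
theorem exists_isFrobeniusAt (A : ValuationSubring Qbar) {ℓ : ℕ} (hℓ : ℓ.Prime)
    (hA : A.LiesOverPrime ℓ) : ∃ σ : GQ, A.IsFrobeniusAt σ ℓ := by
  obtain ⟨σ, hσQ, hσF⟩ := exists_stabilizer_frob A hℓ hA
  have hσQ' : σ⁻¹ • center A = center A := by
    conv_lhs => rw [← hσQ]
    rw [inv_smul_smul]
  have hσ : σ ∈ A.decompositionSubgroup ℚ := by
    rw [MulAction.mem_stabilizer_iff]
    ext x
    rw [ValuationSubring.mem_pointwise_smul_iff_inv_smul_mem]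
    constructor
    · intro h
      have := map_mem_of_smul_center_eq A hℓ hA σ hσQ h
      rwa [← AlgEquiv.smul_def, smul_inv_smul] at this
    · intro h
      exact map_mem_of_smul_center_eq A hℓ hA σ⁻¹ hσQ' h
  refine ⟨σ, hσ, fun x => ?_⟩
  obtain ⟨a, rfl⟩ := IsLocalRing.residue_surjective x
  obtain ⟨b, hb, hbx, hbn⟩ := exists_integral_mul A hℓ hA a.2 (isAlgebraic_int_Qbar a)
  set g : A.decompositionSubgroup ℚ := ⟨σ, hσ⟩ with hg
  set b' : A := incl A ⟨b, hb⟩ with hb'
  set c' : A := incl A ⟨b * a, hbx⟩ with hc'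
  have hmul : b' * a = c' := Subtype.ext rfl
  have hfrob : ∀ z : Zbar, IsLocalRing.residue A (g • incl A z) = IsLocalRing.residue A (incl A z) ^ ℓ := by
    intro z
    rw [← map_pow, ← sub_eq_zero, ← map_sub, IsLocalRing.residue_eq_zero_iff]
    have h1 := hσF z
    rw [center, Ideal.mem_comap] at h1
    exact h1
  have hb0 : IsLocalRing.residue A b' ≠ 0 := by
    rw [Ne, IsLocalRing.residue_eq_zero_iff]
    intro h
    exact hbn ((mem_center_iff A ⟨b, hb⟩).mp h)
  have h2 : IsLocalRing.residue A (g • b') * IsLocalRing.residue A (g • a) =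
      IsLocalRing.residue A (g • c') := by
    rw [← map_mul, ← smul_mul', hmul]
  rw [hfrob, hfrob, ← hb', ← hc', ← hmul, map_mul, mul_pow] at h2
  rw [← IsLocalRing.ResidueField.residue_smul]
  exact mul_left_cancel₀ (pow_ne_zero _ hb0) h2

theorem exists_liesOverPrime {ℓ : ℕ} (hℓ : ℓ.Prime) :
    ∃ A : ValuationSubring Qbar, A.LiesOverPrime ℓ := by
  let R : Subring Qbar := (Int.castRingHom Qbar).range
  let l : R := ⟨(ℓ : Qbar), ⟨(ℓ : ℤ), by simp⟩⟩
  have hne : Ideal.span {l} ≠ ⊤ := by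
    intro h
    rw [Ideal.span_singleton_eq_top] at h
    obtain ⟨⟨_, ⟨n, rfl⟩⟩, hc⟩ := h.exists_right_inv
    have h1 : ((ℓ : Qbar)) * ((n : ℤ) : Qbar) = 1 := congrArg Subtype.val hc
    have h2 : (ℓ : ℤ) * n = 1 := by exact_mod_cast h1
    exact (Nat.prime_iff_prime_int.mp hℓ).not_isUnit (IsUnit.of_mul_eq_one _ h2)
  obtain ⟨B, -, hB⟩ := Ideal.image_subset_nonunits_valuationSubring _ hne
  exact ⟨B, hB ⟨l, Ideal.subset_span rfl, rfl⟩⟩

/-- For each prime there are a place of `ℚ̄` above it and a Frobenius element at that place. -/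
theorem exists_place_and_frobenius {ℓ : ℕ} (hℓ : ℓ.Prime) :
    ∃ (A : ValuationSubring Qbar) (σ : GQ), A.LiesOverPrime ℓ ∧ A.IsFrobeniusAt σ ℓ := by
  obtain ⟨A, hA⟩ := exists_liesOverPrime hℓ
  obtain ⟨σ, hσ⟩ := exists_isFrobeniusAt A hℓ hA
  exact ⟨A, σ, hA, hσ⟩

end Main

end Fermat.Agent.FrobLib
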